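/-
NODAL core, node N14 (sub-architect helper122): N14-a.
General valuation theory, Mathlib only.  `V` is an ARBITRARY valuation subring of `F`, `E / F` is
algebraic, `W` is a valuation subring of `E` over `V`.  Every element of `W` is a fraction `c / b` of
elements integral over `V` with `b` a unit of `W`.

Proof: copy-generalise `Fermat/Agent/Lib/Frobenius/Fraction.lean` (the same statement for `ℤ`):
Horner tails of a polynomial `f` with coefficients in `V`, one of which is a unit of `V`, `f(y) = 0`.
-/
import Mathlib

set_option autoImplicit false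

namespace Fermat.Agent.Nodal.SplitOfFree

variable {F E : Type*} [Field F] [Field E] [Algebra F E]

/-- valuation subrings are integrally closed. -/
theorem mem_of_isIntegral (V : ValuationSubring F) (W : ValuationSubring E)
    (hW : W.comap (algebraMap F E) = V) {c : E} (hc : IsIntegral V c) : c ∈ W := by
  let φ : V →+* W :=
    { toFun := fun x => ⟨algebraMap F E (x : F), by
        have h : (x : F) ∈ W.comap (algebraMap F E) := by rw [hW]; exact x.2
        exact h⟩
      map_one' := Subtype.ext (map_one _)
      map_mul' := fun x y => Subtype.ext (map_mul _ _ _)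
      map_zero' := Subtype.ext (map_zero _)
      map_add' := fun x y => Subtype.ext (map_add _ _ _) }
  let _ : Algebra V W := φ.toAlgebra
  have : IsScalarTower V W E := IsScalarTower.of_algebraMap_eq fun _ => rfl
  have h1 : IsIntegral W c := hc.tower_top
  obtain ⟨y, hy⟩ := (IsIntegrallyClosed.isIntegral_iff (R := W) (K := E)).1 h1
  rw [← hy]
  exact y.2

/-- an element which lies in every valuation subring of `E` containing `V` is integral over `V`
(`Subring.exists_le_valuationSubring_of_isIntegrallyClosedIn`). -/
theorem isIntegral_of_forall_mem (V : ValuationSubring F) (y : E)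
    (h : ∀ W : ValuationSubring E, (∀ a ∈ V, algebraMap F E a ∈ W) → y ∈ W) : IsIntegral V y := by
  by_contra hy
  have hy' : y ∉ (integralClosure V E).toSubring := hy
  have : IsIntegrallyClosedIn (integralClosure V E).toSubring E :=
    inferInstanceAs (IsIntegrallyClosedIn (integralClosure V E) E)
  obtain ⟨W, hle, hW⟩ := Subring.exists_le_valuationSubring_of_isIntegrallyClosedIn hy'
  refine hW (h W fun a ha => hle ?_)
  exact (integralClosure V E).algebraMap_mem (⟨a, ha⟩ : V)

/-- a nonzero polynomial over `F` can be scaled so that all its coefficients are in `V` and one of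
them is `1` (divide by a coefficient of maximal valuation, `Finset.exists_max_image` on the
support). -/
theorem exists_normalised (V : ValuationSubring F) (p : Polynomial F) (hp : p ≠ 0) :
    ∃ a : F, a ≠ 0 ∧ (∀ i, (Polynomial.C a * p).coeff i ∈ V) ∧
      ∃ i, (Polynomial.C a * p).coeff i = 1 := by
  have hne : p.support.Nonempty := Polynomial.nonempty_support_iff.2 hp
  obtain ⟨i₀, hi₀, hmax⟩ := Finset.exists_max_image p.support (fun i => V.valuation (p.coeff i)) hne
  have hc0 : p.coeff i₀ ≠ 0 := Polynomial.mem_support_iff.1 hi₀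
  refine ⟨(p.coeff i₀)⁻¹, inv_ne_zero hc0, fun i => ?_, i₀, ?_⟩
  · rw [Polynomial.coeff_C_mul, ← ValuationSubring.valuation_le_one_iff, map_mul, map_inv₀]
    have hv0 : V.valuation (p.coeff i₀) ≠ 0 := (map_ne_zero _).2 hc0
    rw [inv_mul_le_iff₀ (zero_lt_iff.2 hv0), mul_one]
    by_cases hi : i ∈ p.support
    · exact hmax i hi
    · rw [Polynomial.notMem_support_iff.1 hi, map_zero]
      exact zero_le
  · rw [Polynomial.coeff_C_mul, inv_mul_cancel₀ hc0]

section Horner

open Polynomial

/-- The Horner tails `∑_{i ≥ j} a_i y^{i-j}`. -/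
noncomputable def hornerTail (f : F[X]) (y : E) (j : ℕ) : E := aeval y (divX^[j] f)

theorem coeff_iterate_divX (f : F[X]) (j n : ℕ) : (divX^[j] f).coeff n = f.coeff (n + j) := by
  induction j generalizing n with
  | zero => simp
  | succ j ih =>
    rw [Function.iterate_succ_apply', coeff_divX, ih]
    congr 1
    omega

theorem hornerTail_zero (f : F[X]) (y : E) : hornerTail f y 0 = aeval y f := rfl

theorem hornerTail_eq (f : F[X]) (y : E) (j : ℕ) :
    hornerTail f y j = hornerTail f y (j + 1) * y + algebraMap F E (f.coeff j) := by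
  have h := divX_mul_X_add (divX^[j] f)
  have h2 := congrArg (aeval y) h
  rw [coeff_iterate_divX, zero_add] at h2
  simp only [map_add, map_mul, aeval_X, aeval_C] at h2
  rw [hornerTail, hornerTail, Function.iterate_succ_apply', ← h2]

theorem aeval_mem_of_coeff_mem (W : ValuationSubring E) {y : E} (hy : y ∈ W) (g : F[X])
    (hg : ∀ i, algebraMap F E (g.coeff i) ∈ W) : aeval y g ∈ W := by
  rw [aeval_eq_sum_range]
  refine sum_mem fun i _ => ?_
  rw [Algebra.smul_def]
  exact W.mul_mem _ _ (hg i) (pow_mem hy i)

theorem hornerTail_mem (f : F[X]) (y : E) (hf : aeval y f = 0) (W : ValuationSubring E)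
    (hc : ∀ i, algebraMap F E (f.coeff i) ∈ W) (j : ℕ) : hornerTail f y j ∈ W := by
  by_cases hy : y ∈ W
  · exact aeval_mem_of_coeff_mem W hy _ fun i => by rw [coeff_iterate_divX]; exact hc _
  · have hy0 : y ≠ 0 := fun h => hy (h ▸ W.zero_mem)
    have hyi : y⁻¹ ∈ W := (W.mem_or_inv_mem y).resolve_left hy
    induction j with
    | zero => rw [hornerTail_zero, hf]; exact W.zero_mem
    | succ j ih =>
      have h := hornerTail_eq f y j
      have h2 : hornerTail f y (j + 1) = (hornerTail f y j - algebraMap F E (f.coeff j)) * y⁻¹ := by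
        rw [h]; field_simp; ring
      rw [h2]
      exact W.mul_mem _ _ (W.sub_mem ih (hc j)) hyi

theorem isIntegral_hornerTail (V : ValuationSubring F) (f : F[X]) (hV : ∀ i, f.coeff i ∈ V) (y : E)
    (hf : aeval y f = 0) (j : ℕ) : IsIntegral V (hornerTail f y j) :=
  isIntegral_of_forall_mem V _ fun W hW => hornerTail_mem f y hf W (fun i => hW _ (hV i)) j

theorem hornerTail_mem_nonunits (W : ValuationSubring E) (f : F[X]) {y : E} (hy : y ∈ W) (j : ℕ)
    (hj : ∀ i, j ≤ i → algebraMap F E (f.coeff i) ∈ W.nonunits) :
    hornerTail f y j ∈ W.nonunits := by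
  rw [hornerTail, aeval_eq_sum_range, ValuationSubring.mem_nonunits_iff]
  refine Valuation.map_sum_lt _ one_ne_zero fun i _ => ?_
  rw [coeff_iterate_divX, Algebra.smul_def, map_mul, map_pow]
  have h1 : W.valuation (algebraMap F E (f.coeff (i + j))) < 1 :=
    (ValuationSubring.mem_nonunits_iff W).mp (hj _ (by omega))
  have h2 : W.valuation y ≤ 1 := (W.valuation_le_one_iff y).mpr hy
  calc W.valuation (algebraMap F E (f.coeff (i + j))) * W.valuation y ^ i
      ≤ W.valuation (algebraMap F E (f.coeff (i + j))) * 1 := by
        gcongr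
        exact pow_le_one₀ zero_le h2
    _ < 1 := by rwa [mul_one]

end Horner

/-- **Fractions.** -/
theorem exists_integral_fraction [Algebra.IsAlgebraic F E] (V : ValuationSubring F)
    (W : ValuationSubring E) (hW : W.comap (algebraMap F E) = V) {y : E} (hy : y ∈ W) :
    ∃ b c : E, IsIntegral V b ∧ IsIntegral V c ∧ b ∉ W.nonunits ∧ y * b = c := by
  classical
  obtain ⟨p, hp0, hp⟩ := Algebra.IsAlgebraic.isAlgebraic (R := F) y
  obtain ⟨a, -, hV, i0, hi0'⟩ := exists_normalised V p hp0
  set f := Polynomial.C a * p with hfdef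
  have hf0 : Polynomial.aeval y f = 0 := by
    rw [hfdef, map_mul, hp, mul_zero]
  have hzero : (0 : E) ∈ W.nonunits := by
    rw [ValuationSubring.mem_nonunits_iff, map_zero]; exact zero_lt_one
  have hi0 : algebraMap F E (f.coeff i0) ∉ W.nonunits := by
    rw [hi0', map_one, ValuationSubring.mem_nonunits_iff, map_one]
    exact lt_irrefl _
  have hle : ∀ i, algebraMap F E (f.coeff i) ∉ W.nonunits → i ≤ f.natDegree := by
    intro i hi
    by_contra hlt
    rw [Polynomial.coeff_eq_zero_of_natDegree_lt (by omega), map_zero] at hi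
    exact hi hzero
  set j := Nat.findGreatest (fun i => algebraMap F E (f.coeff i) ∉ W.nonunits) f.natDegree
    with hjdef
  have hj : algebraMap F E (f.coeff j) ∉ W.nonunits :=
    Nat.findGreatest_spec (P := fun i => algebraMap F E (f.coeff i) ∉ W.nonunits) (hle i0 hi0) hi0
  have hgt : ∀ i, j + 1 ≤ i → algebraMap F E (f.coeff i) ∈ W.nonunits := by
    intro i hi
    by_contra hcon
    exact Nat.findGreatest_is_greatest (P := fun i => algebraMap F E (f.coeff i) ∉ W.nonunits)
      (n := f.natDegree) (k := i) (by omega) (hle i hcon) hcon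
  have htail : hornerTail f y (j + 1) ∈ W.nonunits := hornerTail_mem_nonunits W f hy (j + 1) hgt
  have hb : hornerTail f y j ∉ W.nonunits := by
    intro hcon
    apply hj
    have h := hornerTail_eq f y j
    have h2 : algebraMap F E (f.coeff j) = hornerTail f y j - hornerTail f y (j + 1) * y := by
      rw [h]; ring
    rw [h2, ValuationSubring.mem_nonunits_iff]
    rw [ValuationSubring.mem_nonunits_iff] at hcon htail
    refine Valuation.map_sub_lt _ hcon ?_
    rw [map_mul]
    calc W.valuation (hornerTail f y (j + 1)) * W.valuation y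
        ≤ W.valuation (hornerTail f y (j + 1)) * 1 := by
          gcongr
          exact (W.valuation_le_one_iff y).mpr hy
      _ < 1 := by rwa [mul_one]
  have hj0 : j ≠ 0 := by
    intro h0
    rw [h0, hornerTail_zero, hf0] at hb
    exact hb hzero
  obtain ⟨k, hk⟩ := Nat.exists_eq_succ_of_ne_zero hj0
  have hck : IsIntegral V (algebraMap F E (f.coeff k)) :=
    isIntegral_algebraMap (R := V) (A := E) (x := (⟨f.coeff k, hV k⟩ : V))
  refine ⟨hornerTail f y j, hornerTail f y k - algebraMap F E (f.coeff k),
    isIntegral_hornerTail V f hV y hf0 j, (isIntegral_hornerTail V f hV y hf0 k).sub hck, hb, ?_⟩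
  rw [hornerTail_eq f y k, hk]
  ring

end Fermat.Agent.Nodal.SplitOfFree
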