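/-
NODAL core, node N14 (sub-architect helper122): N14-b.
The centre of a valuation subring `W` of `E` over `V` on the integral closure of `V` in `E`.
Mathlib only (+ `Fraction.lean`).  `V` is an ARBITRARY valuation subring of `F`.
-/
import Fermat.Agent.Nodal.SplitOfFree.Fraction

set_option autoImplicit false

namespace Fermat.Agent.Nodal.SplitOfFree

variable {F E : Type*} [Field F] [Field E] [Algebra F E]

/-- `x` is a nonunit of `A` iff `x = 0` or `x⁻¹ ∉ A`. -/
theorem mem_nonunits_iff_inv {K : Type*} [Field K] (A : ValuationSubring K) (x : K) :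
    x ∈ A.nonunits ↔ x = 0 ∨ x⁻¹ ∉ A := by
  rw [ValuationSubring.mem_nonunits_iff, ← A.valuation_le_one_iff, map_inv₀]
  rcases eq_or_ne x 0 with rfl | hx
  · simp
  · have h0 : 0 < A.valuation x := zero_lt_iff.2 ((map_ne_zero _).2 hx)
    rw [inv_le_one₀ h0, not_le]
    simp [hx]

theorem mem_nonunits_comap_iff {K : Type*} [Field K] (φ : K →+* E) (W : ValuationSubring E)
    (y : K) : y ∈ (W.comap φ).nonunits ↔ φ y ∈ W.nonunits := by
  rw [mem_nonunits_iff_inv, mem_nonunits_iff_inv, ValuationSubring.mem_comap, map_inv₀,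
    map_eq_zero]

/-- `𝔪_W ∩ C`, `C` the integral closure of `V` in `E`. -/
def centre (V : ValuationSubring F) (W : ValuationSubring E)
    (hW : W.comap (algebraMap F E) = V) : Ideal (integralClosure V E) where
  carrier := {c | (c : E) ∈ W.nonunits}
  add_mem' := by
    intro a b ha hb
    simp only [Set.mem_ofPred_eq, ValuationSubring.mem_nonunits_iff] at *
    exact Valuation.map_add_lt _ ha hb
  zero_mem' := by
    simp only [Set.mem_ofPred_eq, ValuationSubring.mem_nonunits_iff]
    simp
  smul_mem' := by
    intro c x hx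
    simp only [Set.mem_ofPred_eq, ValuationSubring.mem_nonunits_iff, smul_eq_mul] at *
    have hc : W.valuation (c : E) ≤ 1 :=
      (W.valuation_le_one_iff _).mpr (mem_of_isIntegral V W hW c.2)
    show W.valuation ((c : E) * (x : E)) < 1
    rw [map_mul]
    exact lt_of_le_of_lt (mul_le_of_le_one_left' hc) hx

variable {V : ValuationSubring F} {W W' : ValuationSubring E}
  {hW : W.comap (algebraMap F E) = V} {hW' : W'.comap (algebraMap F E) = V}

theorem mem_centre {c : integralClosure V E} : c ∈ centre V W hW ↔ (c : E) ∈ W.nonunits :=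
  Iff.rfl

theorem centre_isPrime : (centre V W hW).IsPrime := by
  rw [Ideal.isPrime_iff]
  constructor
  · intro h
    have h1 : (1 : integralClosure V E) ∈ centre V W hW := by rw [h]; trivial
    rw [mem_centre, ValuationSubring.mem_nonunits_iff] at h1
    simp at h1
  · intro a b hab
    rw [mem_centre, ValuationSubring.mem_nonunits_iff] at hab ⊢
    rw [mem_centre, ValuationSubring.mem_nonunits_iff]
    by_contra hcon
    rw [not_or, not_lt, not_lt] at hcon
    have h1 : (1 : W.ValueGroup) ≤ W.valuation ((a * b : integralClosure V E) : E) := by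
      show 1 ≤ W.valuation ((a : E) * (b : E))
      rw [map_mul]
      exact one_le_mul hcon.1 hcon.2
    exact absurd hab (not_lt.2 h1)

/-- the centre lies over the maximal ideal of `V`. -/
theorem centre_comap :
    (centre V W hW).comap (algebraMap V (integralClosure V E)) = IsLocalRing.maximalIdeal V := by
  ext a
  rw [Ideal.mem_comap, mem_centre, ← ValuationSubring.coe_mem_nonunits_iff]
  have h1 : ((algebraMap V (integralClosure V E) a : integralClosure V E) : E)
      = algebraMap F E (a : F) := rfl
  rw [h1, ← mem_nonunits_comap_iff, hW]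

/-- `Ideal.isMaximal_of_isIntegral_of_isMaximal_comap`. -/
theorem centre_isMaximal : (centre V W hW).IsMaximal := by
  have : (centre V W hW).IsPrime := centre_isPrime
  apply Ideal.isMaximal_of_isIntegral_of_isMaximal_comap (R := V)
  rw [centre_comap]
  exact IsLocalRing.maximalIdeal.isMaximal V

theorem le_of_centre_eq [Algebra.IsAlgebraic F E] (h : centre V W hW = centre V W' hW') :
    W ≤ W' := by
  intro y hy
  obtain ⟨b, c, hb, hc, hbW, hyb⟩ := exists_integral_fraction V W hW hy
  have hb' : (⟨b, hb⟩ : integralClosure V E) ∉ centre V W' hW' := by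
    rw [← h]; exact hbW
  have hb2 : b ∉ W'.nonunits := hb'
  rw [mem_nonunits_iff_inv, not_or, not_not] at hb2
  have : y = c * b⁻¹ := by
    rw [← hyb, mul_assoc, mul_inv_cancel₀ hb2.1, mul_one]
  rw [this]
  exact W'.mul_mem _ _ (mem_of_isIntegral V W' hW' hc) hb2.2

/-- `W` is determined by its centre (`exists_integral_fraction`). -/
theorem eq_of_centre_eq [Algebra.IsAlgebraic F E] (h : centre V W hW = centre V W' hW') :
    W = W' := by
  exact le_antisymm (le_of_centre_eq h) (le_of_centre_eq h.symm)

/-- elementwise form of the maximality. -/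
theorem exists_mul_sub_one_mem (V : ValuationSubring F) (W : ValuationSubring E)
    (hW : W.comap (algebraMap F E) = V) {b : E} (hb : IsIntegral V b) (hbW : b ∉ W.nonunits) :
    ∃ b' : E, IsIntegral V b' ∧ b * b' - 1 ∈ W.nonunits := by
  have hmax : (centre V W hW).IsMaximal := centre_isMaximal
  have hb' : (⟨b, hb⟩ : integralClosure V E) ∉ centre V W hW := hbW
  obtain ⟨y, i, hi, hyi⟩ := hmax.exists_inv hb'
  refine ⟨(y : E), y.2, ?_⟩
  have h1 : b * (y : E) - 1 = -(i : E) := by
    have h2 := congrArg (fun z : integralClosure V E => (z : E)) hyi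
    have h3 : (y : E) * b + (i : E) = 1 := h2
    rw [← h3]; ring
  rw [h1, ValuationSubring.mem_nonunits_iff, Valuation.map_neg,
    ← ValuationSubring.mem_nonunits_iff]
  exact hi

/-- every element of `W` is congruent to an integral element. -/
theorem exists_integral_congr [Algebra.IsAlgebraic F E] (V : ValuationSubring F)
    (W : ValuationSubring E) (hW : W.comap (algebraMap F E) = V) {y : E} (hy : y ∈ W) :
    ∃ a : E, IsIntegral V a ∧ y - a ∈ W.nonunits := by
  obtain ⟨b, c, hb, hc, hbW, hyb⟩ := exists_integral_fraction V W hW hy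
  obtain ⟨b', hb', hbb'⟩ := exists_mul_sub_one_mem V W hW hb hbW
  refine ⟨c * b', hc.mul hb', ?_⟩
  have h1 : y - c * b' = -(y * (b * b' - 1)) := by
    rw [← hyb]; ring
  rw [h1, ValuationSubring.mem_nonunits_iff, Valuation.map_neg, map_mul]
  rw [ValuationSubring.mem_nonunits_iff] at hbb'
  exact lt_of_le_of_lt (mul_le_of_le_one_left' ((W.valuation_le_one_iff _).2 hy)) hbb'

end Fermat.Agent.Nodal.SplitOfFree
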