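/-
NODAL core, node N14 (sub-architect helper122): N14-c.
The Galois group permutes transitively the valuation subrings of `E` over `V`
(`V` an ARBITRARY valuation subring of `F`, `E / F` finite Galois).
-/
import Fermat.Agent.Nodal.SplitOfFree.Centre

set_option autoImplicit false

namespace Fermat.Agent.Nodal.SplitOfFree

variable {F E : Type*} [Field F] [Field E] [Algebra F E]

theorem comap_algEquiv_comap (W : ValuationSubring E) (γ : E ≃ₐ[F] E) :
    (W.comap (γ : E →+* E)).comap (algebraMap F E) = W.comap (algebraMap F E) := by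
  ext x
  rw [ValuationSubring.mem_comap, ValuationSubring.mem_comap, ValuationSubring.mem_comap]
  have : (γ : E →+* E) (algebraMap F E x) = algebraMap F E x := γ.commutes x
  rw [this]

/-- `C = integralClosure V E`, `let := IsIntegralClosure.MulSemiringAction V F E C`,
`Algebra.isInvariant_of_isGalois V F E C`, `Algebra.IsInvariant.exists_smul_of_under_eq` applied to
`centre V W hW`, `centre V W' hW'` (`centre_isPrime`, `centre_comap`); `g • centre V W _ =
centre V (W.comap g⁻¹) _` (`Ideal.mem_pointwise_smul_iff_inv_smul_mem`,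
`algebraMap_galRestrict_apply`); `eq_of_centre_eq`. -/
theorem exists_comap_eq [FiniteDimensional F E] [IsGalois F E] (V : ValuationSubring F)
    (W W' : ValuationSubring E) (hW : W.comap (algebraMap F E) = V)
    (hW' : W'.comap (algebraMap F E) = V) :
    ∃ γ : E ≃ₐ[F] E, W' = W.comap (γ : E →+* E) := by
  have : IsFractionRing (integralClosure V E) E :=
    integralClosure.isFractionRing_of_finite_extension F E
  let _ := IsIntegralClosure.MulSemiringAction V F E (integralClosure V E)
  have hinv := Algebra.isInvariant_of_isGalois V F E (integralClosure V E)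
  have hsmul : ∀ (g : E ≃ₐ[F] E) (c : integralClosure V E), ((g • c : integralClosure V E) : E) =
      g (c : E) := fun g c => algebraMap_galRestrict_apply V g c
  have : SMulCommClass (E ≃ₐ[F] E) V (integralClosure V E) := ⟨fun g a c =>
    map_smul (galRestrict V F E (integralClosure V E) g) a c⟩
  have := centre_isPrime (hW := hW)
  have := centre_isPrime (hW := hW')
  obtain ⟨g, hg⟩ := Algebra.IsInvariant.exists_smul_of_under_eq V (integralClosure V E)
    (E ≃ₐ[F] E) (centre V W hW) (centre V W' hW') (by
      rw [Ideal.under_def, Ideal.under_def, centre_comap, centre_comap])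
  refine ⟨g⁻¹, ?_⟩
  refine eq_of_centre_eq (hW := hW') (hW' := (comap_algEquiv_comap W g⁻¹).trans hW) ?_
  ext c
  rw [hg, Ideal.mem_pointwise_smul_iff_inv_smul_mem, mem_centre, mem_centre,
    mem_nonunits_comap_iff, hsmul]
  rfl

/-- the stabilisers of conjugate valuation subrings are conjugate. -/
theorem free_of_free [FiniteDimensional F E] [IsGalois F E] (V : ValuationSubring F)
    (W₀ W : ValuationSubring E) (hW₀ : W₀.comap (algebraMap F E) = V)
    (hW : W.comap (algebraMap F E) = V)
    (hfree : ∀ γ : E ≃ₐ[F] E, W₀.comap (γ : E →+* E) = W₀ → γ = 1) :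
    ∀ γ : E ≃ₐ[F] E, W.comap (γ : E →+* E) = W → γ = 1 := by
  obtain ⟨γ₀, rfl⟩ := exists_comap_eq V W₀ W hW₀ hW
  intro γ hγ
  have h1 : W₀.comap ((γ₀ * γ * γ₀⁻¹ : E ≃ₐ[F] E) : E →+* E) = W₀ := by
    ext y
    have h2 : γ₀⁻¹ y ∈ (W₀.comap (γ₀ : E →+* E)).comap (γ : E →+* E) ↔
        γ₀⁻¹ y ∈ W₀.comap (γ₀ : E →+* E) := by rw [hγ]
    rw [ValuationSubring.mem_comap, ValuationSubring.mem_comap, ValuationSubring.mem_comap] at h2
    have h3 : (γ₀ : E →+* E) (γ₀⁻¹ y) = y := γ₀.apply_symm_apply y
    rw [h3] at h2
    rw [ValuationSubring.mem_comap]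
    exact h2
  have h4 := hfree _ h1
  have h5 : γ₀ * γ = γ₀ := by
    have := congrArg (· * γ₀) h4
    simpa using this
  exact mul_eq_left.1 h5

end Fermat.Agent.Nodal.SplitOfFree
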