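/-
NODAL core, node N14 (sub-architect helper122): N14-d.
The "idempotent" `ε` of a valuation subring `W` with trivial decomposition group.
-/
import Fermat.Agent.Nodal.SplitOfFree.Centre

set_option autoImplicit false

namespace Fermat.Agent.Nodal.SplitOfFree

variable {F E : Type*} [Field F] [Field E] [Algebra F E]

/-- conjugates of integral elements are integral. -/
theorem isIntegral_algEquiv (V : ValuationSubring F) (γ : E ≃ₐ[F] E) {c : E}
    (hc : IsIntegral V c) : IsIntegral V (γ c) :=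
  hc.map γ

/-- the conjugates of `W` lie over `V`. -/
theorem eps_comap_algEquiv_comap (V : ValuationSubring F) (W : ValuationSubring E)
    (hW : W.comap (algebraMap F E) = V) (γ : E ≃ₐ[F] E) :
    (W.comap (γ : E →+* E)).comap (algebraMap F E) = V := by
  rw [← hW]
  ext y
  rw [ValuationSubring.mem_comap, ValuationSubring.mem_comap, ValuationSubring.mem_comap]
  show γ (algebraMap F E y) ∈ W ↔ _
  rw [γ.commutes]

/-- For `γ ≠ 1` the maximal ideals `n₁ = centre V W _` and `n_γ = centre V (W.comap γ) _` are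
distinct (`eq_of_centre_eq`, `hfree`), so `n₁ ⊔ n_γ = ⊤`; `Ideal.sup_iInf_eq_top` gives
`n₁ ⊔ ⨅ γ ≠ 1, n_γ = ⊤`; write `1 = δ + ε`. -/
theorem exists_eps [FiniteDimensional F E] (V : ValuationSubring F) (W : ValuationSubring E)
    (hW : W.comap (algebraMap F E) = V)
    (hfree : ∀ γ : E ≃ₐ[F] E, W.comap (γ : E →+* E) = W → γ = 1) :
    ∃ ε : E, IsIntegral V ε ∧ ε - 1 ∈ W.nonunits ∧
      ∀ γ : E ≃ₐ[F] E, γ ≠ 1 → γ ε ∈ W.nonunits := by
  classical
  have hsup : ∀ γ : E ≃ₐ[F] E, γ ∈ Finset.univ.erase (1 : E ≃ₐ[F] E) →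
      centre V W hW ⊔ centre V (W.comap (γ : E →+* E)) (eps_comap_algEquiv_comap V W hW γ) = ⊤ := by
    intro γ hγ
    refine Ideal.IsMaximal.coprime_of_ne centre_isMaximal centre_isMaximal fun h => ?_
    exact (Finset.mem_erase.mp hγ).1 (hfree γ (eq_of_centre_eq h).symm)
  have htop := Ideal.sup_iInf_eq_top hsup
  have h1 : (1 : integralClosure V E) ∈ centre V W hW ⊔ ⨅ γ ∈ Finset.univ.erase (1 : E ≃ₐ[F] E),
      centre V (W.comap (γ : E →+* E)) (eps_comap_algEquiv_comap V W hW γ) := by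
    rw [htop]
    exact Submodule.mem_top
  obtain ⟨δ, hδ, ε, hε, hsum⟩ := Submodule.mem_sup.mp h1
  refine ⟨ε, ε.2, ?_, fun γ hγ => ?_⟩
  · have h2 : ε - 1 ∈ centre V W hW := by
      rw [← hsum]
      have : ε - (δ + ε) = -δ := by ring
      rw [this]
      exact neg_mem hδ
    exact mem_centre.mp h2
  · have h3 : ε ∈ centre V (W.comap (γ : E →+* E)) (eps_comap_algEquiv_comap V W hW γ) := by
      have := (Submodule.mem_iInf _).mp hε γ
      exact (Submodule.mem_iInf _).mp this (Finset.mem_erase.mpr ⟨hγ, Finset.mem_univ _⟩)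
    exact (mem_nonunits_comap_iff (γ : E →+* E) W (ε : E)).mp (mem_centre.mp h3)

end Fermat.Agent.Nodal.SplitOfFree
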