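/-
NODAL core, node N14 (sub-architect helper122): N14-e.
Trivial decomposition group => residue degree one.
-/
import Fermat.Agent.Nodal.SplitOfFree.Eps

set_option autoImplicit false

namespace Fermat.Agent.Nodal.SplitOfFree

variable {F E : Type*} [Field F] [Field E] [Algebra F E]

theorem resdeg_add_mem {W : ValuationSubring E} {x y : E} (hx : x ∈ W.nonunits)
    (hy : y ∈ W.nonunits) : x + y ∈ W.nonunits := by
  rw [ValuationSubring.mem_nonunits_iff] at *
  exact Valuation.map_add_lt _ hx hy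

theorem resdeg_neg_mem {W : ValuationSubring E} {x : E} (hx : x ∈ W.nonunits) :
    -x ∈ W.nonunits := by
  rw [ValuationSubring.mem_nonunits_iff] at *
  rwa [Valuation.map_neg]

theorem resdeg_mul_mem {W : ValuationSubring E} {x y : E} (hx : x ∈ W)
    (hy : y ∈ W.nonunits) : x * y ∈ W.nonunits := by
  rw [ValuationSubring.mem_nonunits_iff] at *
  rw [map_mul]
  exact lt_of_le_of_lt (mul_le_of_le_one_left' ((W.valuation_le_one_iff _).mpr hx)) hy

theorem resdeg_sum_mem {W : ValuationSubring E} {ι : Type*} (s : Finset ι) (f : ι → E)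
    (h : ∀ i ∈ s, f i ∈ W.nonunits) : ∑ i ∈ s, f i ∈ W.nonunits := by
  rw [ValuationSubring.mem_nonunits_iff]
  exact Valuation.map_sum_lt _ one_ne_zero
    fun i hi => (ValuationSubring.mem_nonunits_iff W).1 (h i hi)

/-- `y ≡ a` with `a` integral (`exists_integral_congr`); `t = a ε` (`exists_eps`);
`z = Tr t = ∑ γ, γ t` (`Algebra.trace_eq_sum_automorphisms`) `= t + ∑_{γ ≠ 1} γ a * γ ε ≡ t ≡ a ≡ y`
(`γ a ∈ W` by `isIntegral_algEquiv`, `mem_of_isIntegral`). -/
theorem resdeg [FiniteDimensional F E] [IsGalois F E] (V : ValuationSubring F)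
    (W : ValuationSubring E) (hW : W.comap (algebraMap F E) = V)
    (hfree : ∀ γ : E ≃ₐ[F] E, W.comap (γ : E →+* E) = W → γ = 1) {y : E} (hy : y ∈ W) :
    ∃ z : F, y - algebraMap F E z ∈ W.nonunits := by
  classical
  obtain ⟨a, ha, hya⟩ := exists_integral_congr V W hW hy
  obtain ⟨ε, hε, hε1, hεγ⟩ := exists_eps V W hW hfree
  refine ⟨Algebra.trace F E (a * ε), ?_⟩
  rw [trace_eq_sum_automorphisms,
    ← Finset.add_sum_erase Finset.univ _ (Finset.mem_univ (1 : E ≃ₐ[F] E))]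
  have haW : a ∈ W := mem_of_isIntegral V W hW ha
  have h1 : a * (ε - 1) ∈ W.nonunits := resdeg_mul_mem haW hε1
  have h2 : ∑ γ ∈ Finset.univ.erase (1 : E ≃ₐ[F] E), γ (a * ε) ∈ W.nonunits := by
    refine resdeg_sum_mem _ _ fun γ hγ => ?_
    rw [map_mul]
    exact resdeg_mul_mem (mem_of_isIntegral V W hW (isIntegral_algEquiv V γ ha))
      (hεγ γ (Finset.ne_of_mem_erase hγ))
  have e : y - ((1 : E ≃ₐ[F] E) (a * ε) + ∑ γ ∈ Finset.univ.erase (1 : E ≃ₐ[F] E), γ (a * ε)) =
      (y - a) + (-(a * (ε - 1)) + -(∑ γ ∈ Finset.univ.erase (1 : E ≃ₐ[F] E), γ (a * ε))) := by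
    rw [AlgEquiv.one_apply]
    ring
  rw [e]
  exact resdeg_add_mem hya (resdeg_add_mem (resdeg_neg_mem h1) (resdeg_neg_mem h2))

end Fermat.Agent.Nodal.SplitOfFree
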