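/-
NODAL core, node N14 (sub-architect helper122): N14-f.
Trivial decomposition group => ramification index one.
-/
import Fermat.Agent.Nodal.SplitOfFree.Eps

set_option autoImplicit false

namespace Fermat.Agent.Nodal.SplitOfFree

variable {F E : Type*} [Field F] [Field E] [Algebra F E]

theorem valuation_eq_one_of_notMem_nonunits (W : ValuationSubring E) {z : E} (hz : z ∈ W)
    (h : z ∉ W.nonunits) : W.valuation z = 1 := by
  rw [W.mem_nonunits_iff, not_lt] at h
  exact le_antisymm ((W.valuation_le_one_iff z).mpr hz) h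

theorem valuation_eq_one_of_sub_one_mem (W : ValuationSubring E) {z : E}
    (h : z - 1 ∈ W.nonunits) : W.valuation z = 1 := by
  rw [W.mem_nonunits_iff] at h
  have h1 : z = 1 + (z - 1) := by ring
  rw [h1]
  exact Valuation.map_one_add_of_lt _ h

theorem inv_mem_of_valuation_eq_one (W : ValuationSubring E) {z : E}
    (h : W.valuation z = 1) : z⁻¹ ∈ W := by
  rw [← W.valuation_le_one_iff, map_inv₀, h, inv_one]

/-- `Nm c = ∏ γ, γ c = c * u` (`Algebra.norm_eq_prod_automorphisms`), `u = ∏_{γ ≠ 1} γ c` is a unit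
of `W`; `Nm c ∈ 𝔪_W ∩ F = 𝔪_V`, so `ϖ⁻¹ Nm c ∈ V ⊆ W` and `ϖ⁻¹ c = ϖ⁻¹ Nm c * u⁻¹ ∈ W`. -/
theorem unif_aux [FiniteDimensional F E] [IsGalois F E] (V : ValuationSubring F)
    (W : ValuationSubring E) (hW : W.comap (algebraMap F E) = V)
    (ϖ : F) (hϖ : ∀ y ∈ V.nonunits, ϖ⁻¹ * y ∈ V) {c : E} (hc : IsIntegral V c)
    (hcW : c ∈ W.nonunits) (hγ : ∀ γ : E ≃ₐ[F] E, γ ≠ 1 → γ c ∉ W.nonunits) :
    (algebraMap F E ϖ)⁻¹ * c ∈ W := by
  classical
  have hnorm := Algebra.norm_eq_prod_automorphisms F c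
  rw [← Finset.mul_prod_erase Finset.univ (fun σ : E ≃ₐ[F] E => σ c) (Finset.mem_univ 1)] at hnorm
  set u : E := ∏ σ ∈ Finset.univ.erase (1 : E ≃ₐ[F] E), σ c with hu
  have h1c : (1 : E ≃ₐ[F] E) c = c := rfl
  rw [h1c] at hnorm
  have huv : W.valuation u = 1 := by
    rw [hu, map_prod]
    refine Finset.prod_eq_one (fun γ hγ' => ?_)
    exact valuation_eq_one_of_notMem_nonunits W
      (mem_of_isIntegral V W hW (isIntegral_algEquiv V γ hc)) (hγ γ (Finset.ne_of_mem_erase hγ'))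
  have hu0 : u ≠ 0 := by
    intro h0
    rw [h0, map_zero] at huv
    exact zero_ne_one huv
  have hNW : algebraMap F E (Algebra.norm F c) ∈ W.nonunits := by
    rw [hnorm, W.mem_nonunits_iff, map_mul, huv, mul_one]
    exact W.mem_nonunits_iff.mp hcW
  have hNV : Algebra.norm F c ∈ V.nonunits := by
    rw [← hW, mem_nonunits_comap_iff]
    exact hNW
  have h2 : ϖ⁻¹ * Algebra.norm F c ∈ V := hϖ _ hNV
  rw [← hW, ValuationSubring.mem_comap, map_mul, map_inv₀, hnorm] at h2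
  have h3 : (algebraMap F E ϖ)⁻¹ * c = (algebraMap F E ϖ)⁻¹ * (c * u) * u⁻¹ := by
    field_simp
  rw [h3]
  exact W.mul_mem _ _ h2 (inv_mem_of_valuation_eq_one W huv)

/-- `y = a / b` (`exists_integral_fraction`), `a = y b ∈ 𝔪_W`.  With `ε` of `exists_eps` apply
`unif_aux` to `c₁ = a ε + (1 - ε)` and to `c₀ = 1 - ε` (`γ c₁ - 1 = γ ε (γ a - 1) ∈ 𝔪_W` for
`γ ≠ 1`): `ϖ⁻¹ a ε ∈ W`; `ε` and `b` are units of `W`. -/
theorem unif [FiniteDimensional F E] [IsGalois F E] (V : ValuationSubring F)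
    (W : ValuationSubring E) (hW : W.comap (algebraMap F E) = V)
    (hfree : ∀ γ : E ≃ₐ[F] E, W.comap (γ : E →+* E) = W → γ = 1)
    (ϖ : F) (hϖ : ∀ y ∈ V.nonunits, ϖ⁻¹ * y ∈ V) {y : E} (hy : y ∈ W.nonunits) :
    (algebraMap F E ϖ)⁻¹ * y ∈ W := by
  have hyv : W.valuation y < 1 := W.mem_nonunits_iff.mp hy
  have hyW : y ∈ W := (W.valuation_le_one_iff y).mp hyv.le
  obtain ⟨b, a, hb, ha, hbW, hyb⟩ := exists_integral_fraction V W hW hyW
  obtain ⟨ε, hε, hε1, hεγ⟩ := exists_eps V W hW hfree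
  have hbv : W.valuation b = 1 :=
    valuation_eq_one_of_notMem_nonunits W (mem_of_isIntegral V W hW hb) hbW
  have hεv : W.valuation ε = 1 := valuation_eq_one_of_sub_one_mem W hε1
  have hav : W.valuation a < 1 := by rw [← hyb, map_mul, hbv, mul_one]; exact hyv
  have h1ε : W.valuation (1 - ε) < 1 := by
    rw [← neg_sub, Valuation.map_neg]
    exact W.mem_nonunits_iff.mp hε1
  have hone : IsIntegral V (1 : E) := isIntegral_one
  -- the element `c₀ = 1 - ε`
  have k₀ : (algebraMap F E ϖ)⁻¹ * (1 - ε) ∈ W := by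
    refine unif_aux V W hW ϖ hϖ (hone.sub hε) (W.mem_nonunits_iff.mpr h1ε) (fun γ hγ => ?_)
    have h2 : W.valuation (γ (1 - ε)) = 1 := by
      apply valuation_eq_one_of_sub_one_mem
      have : γ (1 - ε) - 1 = -γ ε := by rw [map_sub, map_one]; ring
      rw [this, W.mem_nonunits_iff, Valuation.map_neg]
      exact W.mem_nonunits_iff.mp (hεγ γ hγ)
    rw [W.mem_nonunits_iff, h2]
    exact lt_irrefl _
  -- the element `c₁ = a ε + (1 - ε)`
  have k₁ : (algebraMap F E ϖ)⁻¹ * (a * ε + (1 - ε)) ∈ W := by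
    refine unif_aux V W hW ϖ hϖ ((ha.mul hε).add (hone.sub hε)) ?_ (fun γ hγ => ?_)
    · rw [W.mem_nonunits_iff]
      refine Valuation.map_add_lt _ ?_ h1ε
      rw [map_mul, hεv, mul_one]
      exact hav
    · have h2 : W.valuation (γ (a * ε + (1 - ε))) = 1 := by
        apply valuation_eq_one_of_sub_one_mem
        have : γ (a * ε + (1 - ε)) - 1 = γ ε * (γ a - 1) := by
          rw [map_add, map_mul, map_sub, map_one]; ring
        rw [this, W.mem_nonunits_iff, map_mul]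
        have h3 : W.valuation (γ a - 1) ≤ 1 :=
          (W.valuation_le_one_iff _).mpr
            (W.sub_mem (mem_of_isIntegral V W hW (isIntegral_algEquiv V γ ha)) W.one_mem)
        exact mul_lt_one_of_lt_of_le (W.mem_nonunits_iff.mp (hεγ γ hγ)) h3
      rw [W.mem_nonunits_iff, h2]
      exact lt_irrefl _
  have hb0 : b ≠ 0 := by
    intro h0
    rw [h0, map_zero] at hbv
    exact zero_ne_one hbv
  have hε0 : ε ≠ 0 := by
    intro h0
    rw [h0, map_zero] at hεv
    exact zero_ne_one hεv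
  have key : (algebraMap F E ϖ)⁻¹ * y =
      ((algebraMap F E ϖ)⁻¹ * (a * ε + (1 - ε)) - (algebraMap F E ϖ)⁻¹ * (1 - ε)) *
        (ε⁻¹ * b⁻¹) := by
    rw [← hyb]
    field_simp
    ring
  rw [key]
  exact W.mul_mem _ _ (W.sub_mem k₁ k₀)
    (W.mul_mem _ _ (inv_mem_of_valuation_eq_one W hεv) (inv_mem_of_valuation_eq_one W hbv))

end Fermat.Agent.Nodal.SplitOfFree
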